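import Fermat.Agent.RedTorsion.KernelTorsion
import Fermat.Agent.FiniteFlat.Instance
import Fermat.Agent.EichlerShimura.Specialization

/-!
# Reduction is injective on the prime-to-`ℓ` torsion of `J₀(N)`
-/

set_option autoImplicit false
set_option maxHeartbeats 1000000
set_option synthInstance.maxHeartbeats 400000

noncomputable section

open IsLocalRing AlgebraicCurve ModularCurve
open Fermat.Agent.FF Fermat.Agent.FiniteFlat Fermat.Agent.EichlerShimura

namespace Fermat.Agent.RedTorsion

theorem injectiveOnTorsion (N : ℕ) [NeZero N] : InjectiveOnTorsion N := by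
  intro ℓ _ hℓN A hA hin m hm z hmz hz
  have hℓ : ℓ.Prime := Fact.out
  haveI := Arith.residueField_charP hA hℓ
  haveI : IsAlgClosed (ResidueField A) := Arith.residueField_isAlgClosed A
  have hNA : (N : ResidueField A) ≠ 0 := natCast_ne_zero hℓ hℓN hA
  haveI : IsFunctionField (AlgebraicClosure ℚ) (modularFunctionFieldBar N) := isFunctionField_bar
  haveI : IsFunctionField (ResidueField A) (modularFunctionFieldFullC (ResidueField A) N) :=
    isFunctionField_full (F := modularFunctionFieldFullC (ResidueField A) N) rfl hNA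
  obtain ⟨D, rfl⟩ := Pic0.mk_surjective z
  have hm0 : m ≠ 0 := fun e => hm (e ▸ dvd_zero ℓ)
  have hgen : PrincipalGeneratedByIntegral A (residue A) N := hin.choose_spec.2
  have hmz' : (m : ℤ) • Pic0.mk D = 0 := by rw [natCast_zsmul]; exact hmz
  rw [reductionModL_mk_of_torsion (seriesCompat hNA) hgen D hm0 hmz'] at hz
  have hred := AddSubgroup.mem_addSubgroupOf.mp ((QuotientAddGroup.eq_zero_iff _).mp hz)
  have hmD : (m : ℤ) • D.1 ∈ Divisor.principal (K := AlgebraicClosure ℚ)
      (F := modularFunctionFieldBar N) := by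
    have h1 : ((QuotientAddGroup.mk ((m : ℤ) • D) : Pic0 (AlgebraicClosure ℚ)
        (modularFunctionFieldBar N))) = 0 := by
      rw [QuotientAddGroup.mk_zsmul]; exact hmz'
    exact AddSubgroup.mem_addSubgroupOf.mp ((QuotientAddGroup.eq_zero_iff _).mp h1)
  have hu : IsUnit (m : A) := by
    rw [← IsLocalRing.residue_ne_zero_iff_isUnit, map_natCast, Ne, CharP.cast_eq_zero_iff (ResidueField A) ℓ]
    exact hm
  exact (QuotientAddGroup.eq_zero_iff _).mpr (AddSubgroup.mem_addSubgroupOf.mpr
    (mem_principal_of_redDiv_mem_principal (goodRed hNA) hu D.2 hmD hred))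

end Fermat.Agent.RedTorsion

end
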