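import Fermat.Agent.FiniteFlat.Operation

/-!
# Values and coefficients of functions on a residue disc

For good reduction, functions of the lattice without poles in a residue disc have values in `A`
reducing to the values of the reductions, and a coordinate of the disc gives linear coefficient
maps detecting the order of the reduction.
-/

set_option autoImplicit false
set_option maxHeartbeats 1000000
set_option synthInstance.maxHeartbeats 400000
set_option linter.unusedSectionVars false

noncomputable section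

open IsLocalRing AlgebraicCurve
open Fermat.Agent.Arith Fermat.Agent.FF Fermat.Agent.FiniteFlat
open scoped Classical

namespace Fermat.Agent.RedTorsion

section Place

variable {K E : Type*} [Field K] [IsAlgClosed K] [Field E] [Algebra K E] [IsFunctionField K E]

theorem exists_const_sub_mem (v : Place K E) {f : E} (hf : f ∈ v.toValuationSubring) :
    ∃ c : K, f - algebraMap K E c ∈ ordGe v 1 := by
  have h1 : Module.finrank K v.ResidueField = 1 := deg_eq_one v
  obtain ⟨c, hc⟩ := (finrank_eq_one_iff_of_nonzero' (1 : v.ResidueField) one_ne_zero).mp h1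
    (residueLin v ⟨f, (mem_ordGe_zero v).mpr hf⟩)
  refine ⟨c, ?_⟩
  have hmem : algebraMap K E c ∈ ordGe v 0 := (mem_ordGe_zero v).mpr (v.algebraMap_mem' c)
  have h2 : residueLin v (⟨f, (mem_ordGe_zero v).mpr hf⟩ - ⟨_, hmem⟩) = 0 := by
    rw [map_sub, sub_eq_zero, ← hc, Algebra.smul_def, mul_one]
    rfl
  exact (residueLin_eq_zero_iff v).mp h2

theorem eq_zero_of_algebraMap_mem (v : Place K E) {c : K} (h : algebraMap K E c ∈ ordGe v 1) :
    c = 0 := by
  by_contra hc
  have := le_ord_of_mem_ordGe v ((map_ne_zero _).mpr hc) h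
  rw [ord_algebraMap] at this
  omega

end Place

variable {A : ValuationSubring QBar} {F : Type*} [Field F] [Algebra QBar F]
  {Fk : Type*} [Field Fk] [Algebra (ResidueField A) Fk]
  [IsFunctionField QBar F] [IsFunctionField (ResidueField A) Fk]
  (h : GoodRed A F Fk)

theorem redDiv_apply_eq_sum (D : Divisor QBar F) (Q : Place (ResidueField A) Fk) :
    redDiv h D Q = ∑ P ∈ D.support.filter (fun P => redPlace h P = Q), D P := by
  simp only [redDiv_apply, Finsupp.mapDomain, Finsupp.sum_apply, Finsupp.single_apply]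
  rw [Finset.sum_filter]
  rfl

theorem le_redDiv_apply {D : Divisor QBar F} {Q : Place (ResidueField A) Fk}
    (hD : ∀ P', redPlace h P' = Q → 0 ≤ D P') {P : Place QBar F} (hP : redPlace h P = Q) :
    D P ≤ redDiv h D Q := by
  rw [redDiv_apply_eq_sum]
  by_cases h0 : D P = 0
  · rw [h0]
    exact Finset.sum_nonneg fun P' hP' => hD P' (Finset.mem_filter.mp hP').2
  · exact Finset.single_le_sum (fun P' hP' => hD P' (Finset.mem_filter.mp hP').2)
      (Finset.mem_filter.mpr ⟨Finsupp.mem_support_iff.mpr h0, hP⟩)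

theorem redDiv_apply_eq_of_forall {D : Divisor QBar F} {Q : Place (ResidueField A) Fk}
    {P : Place QBar F} (hP : redPlace h P = Q)
    (hD : ∀ P', redPlace h P' = Q → P' ≠ P → D P' = 0) : redDiv h D Q = D P := by
  rw [redDiv_apply_eq_sum]
  refine Finset.sum_eq_single P (fun P' hP' hne => hD P' (Finset.mem_filter.mp hP').2 hne) fun hnot => ?_
  by_contra h0
  exact hnot (Finset.mem_filter.mpr ⟨Finsupp.mem_support_iff.mpr h0, hP⟩)

theorem exists_pos_of_redDiv_apply_pos {D : Divisor QBar F} {Q : Place (ResidueField A) Fk}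
    (hQ : 0 < redDiv h D Q) : ∃ P, redPlace h P = Q ∧ 0 < D P := by
  rw [redDiv_apply_eq_sum] at hQ
  by_contra! hcon
  exact absurd hQ (not_lt.mpr (Finset.sum_nonpos fun P hP => hcon P (Finset.mem_filter.mp hP).2))

/-- Lattice elements without poles over `Q`. -/
def discRing (Q : Place (ResidueField A) Fk) : Subring F :=
  h.S ⊓ ⨅ P : {P : Place QBar F // redPlace h P = Q}, P.1.toValuationSubring.toSubring

theorem mem_discRing {Q : Place (ResidueField A) Fk} {f : F} :
    f ∈ discRing h Q ↔ f ∈ h.S ∧ ∀ P, redPlace h P = Q → f ∈ P.toValuationSubring := by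
  simp [discRing, Subring.mem_iInf]

theorem mem_discRing_of_ord {Q : Place (ResidueField A) Fk} {f : F} (hf : f ∈ h.S)
    (ho : ∀ P, redPlace h P = Q → 0 ≤ P.ord f) : f ∈ discRing h Q :=
  (mem_discRing h).mpr ⟨hf, fun P hP => (mem_iff P).mpr (Or.inr (ho P hP))⟩

variable {h} {Q : Place (ResidueField A) Fk}

/-- The reduction on a disc ring. -/
def redR (h : GoodRed A F Fk) (Q : Place (ResidueField A) Fk) : discRing h Q →+* Fk :=
  (redF h.toRedLattice).comp (Subring.inclusion inf_le_left)

/-- The constants in a disc ring. -/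
def cstR (h : GoodRed A F Fk) (Q : Place (ResidueField A) Fk) : A →+* discRing h Q :=
  ((algebraMap QBar F).comp A.subtype).codRestrict _ fun a =>
    (mem_discRing h).mpr ⟨h.const_mem a, fun P _ => P.algebraMap_mem' _⟩

theorem coe_cstR (a : A) : (cstR h Q a : F) = algebraMap QBar F a := rfl

theorem redR_cstR (a : A) :
    redR h Q (cstR h Q a) = algebraMap (ResidueField A) Fk (residue A a) := h.rho_const a

theorem redR_mem_ordGe (φ : discRing h Q) {P : Place QBar F} (hP : redPlace h P = Q) {n : ℤ}
    (hn : (φ : F) ∈ ordGe P n) : redR h Q φ ∈ ordGe Q n := by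
  by_cases h0 : redR h Q φ = 0
  · rw [h0]; exact zero_mem _
  have hφ : (φ : F) ≠ 0 := fun e => h0 (by rw [show φ = 0 from Subtype.ext e, map_zero])
  refine mem_ordGe_of_le Q ?_
  have h1 := redDiv_div h ⟨(φ : F), ((mem_discRing h).mp φ.2).1⟩ h0
  refine le_trans ((le_ord_of_mem_ordGe P hφ hn).trans (le_redDiv_apply h (D := FF.div QBar (φ : F))
    (fun P' hP' => ord_nonneg P' (((mem_discRing h).mp φ.2).2 P' hP')) hP)) ?_
  rw [h1]
  exact le_rfl

variable {P : Place QBar F}

section Value

variable (hP : redPlace h P = Q)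

include hP in
theorem exists_discValue (φ : discRing h Q) :
    ∃ a : A, (φ : F) - algebraMap QBar F a ∈ ordGe P 1 := by
  obtain ⟨c, hc⟩ := exists_const_sub_mem P (((mem_discRing h).mp φ.2).2 P hP)
  by_cases hcA : c ∈ A
  · exact ⟨⟨c, hcA⟩, hc⟩
  exfalso
  have hci : c⁻¹ ∈ A := (A.mem_or_inv_mem c).resolve_left hcA
  have hc0 : c ≠ 0 := fun e => hcA (e ▸ A.zero_mem)
  have hres : residue A ⟨c⁻¹, hci⟩ = 0 := by
    refine (IsLocalRing.residue_eq_zero_iff _).mpr fun hu => hcA ?_
    obtain ⟨w, hw⟩ := hu.exists_right_inv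
    have h3 := congrArg Subtype.val hw
    simp only [MulMemClass.coe_mul, OneMemClass.coe_one] at h3
    rw [← inv_inv c, ← eq_inv_of_mul_eq_one_right h3]
    exact w.2
  have hψ : (((cstR h Q ⟨c⁻¹, hci⟩ * φ - 1 : discRing h Q)) : F) ∈ ordGe P 1 := by
    have := Submodule.smul_mem _ c⁻¹ hc
    rw [smul_sub, Algebra.smul_def, Algebra.smul_def, ← map_mul, inv_mul_cancel₀ hc0, map_one] at this
    exact this
  have h1 := redR_mem_ordGe _ hP hψ
  rw [map_sub, map_mul, redR_cstR, hres, map_zero, zero_mul, zero_sub, map_one] at h1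
  exact one_ne_zero (eq_zero_of_algebraMap_mem (c := (1 : ResidueField A)) Q
    (by rw [map_one]; simpa using neg_mem h1))

/-- The value at a point of the disc. -/
def valR (φ : discRing h Q) : A := (exists_discValue hP φ).choose

theorem sub_valR_mem (φ : discRing h Q) :
    (φ : F) - algebraMap QBar F (valR hP φ) ∈ ordGe P 1 :=
  (exists_discValue hP φ).choose_spec

theorem valR_eq {φ : discRing h Q} {a : A} (ha : (φ : F) - algebraMap QBar F a ∈ ordGe P 1) :
    valR hP φ = a := by
  have := sub_mem ha (sub_valR_mem hP φ)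
  rw [sub_sub_sub_cancel_left, ← map_sub] at this
  exact Subtype.ext (sub_eq_zero.mp (eq_zero_of_algebraMap_mem P this))

theorem valR_add (φ ψ : discRing h Q) : valR hP (φ + ψ) = valR hP φ + valR hP ψ := by
  refine valR_eq hP ?_
  have := add_mem (sub_valR_mem hP φ) (sub_valR_mem hP ψ)
  rw [← add_sub_add_comm, ← map_add] at this
  exact this

theorem valR_cst_mul (a : A) (φ : discRing h Q) :
    valR hP (cstR h Q a * φ) = a * valR hP φ := by
  refine valR_eq hP ?_
  have := Submodule.smul_mem _ (a : QBar) (sub_valR_mem hP φ)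
  rw [Algebra.smul_def, mul_sub, ← map_mul] at this
  exact this

theorem valR_eq_zero {φ : discRing h Q} (hφ : (φ : F) ∈ ordGe P 1) : valR hP φ = 0 :=
  valR_eq hP (by simpa using hφ)

theorem redR_sub_mem (φ : discRing h Q) :
    redR h Q φ - algebraMap (ResidueField A) Fk (residue A (valR hP φ)) ∈ ordGe Q 1 := by
  have h1 : ((φ - cstR h Q (valR hP φ) : discRing h Q) : F) ∈ ordGe P 1 := sub_valR_mem hP φ
  have := redR_mem_ordGe _ hP h1
  rwa [map_sub, redR_cstR] at this

theorem residue_valR_ne_zero {φ : discRing h Q} (hne : redR h Q φ ≠ 0)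
    (ho : Q.ord (redR h Q φ) = 0) : residue A (valR hP φ) ≠ 0 := fun he => by
  have h1 := redR_sub_mem hP φ
  rw [he, map_zero, sub_zero] at h1
  have := le_ord_of_mem_ordGe Q hne h1
  omega

end Value

/-- A coordinate on the residue disc over `Q`, centred at `P`. -/
structure DiscCoord (h : GoodRed A F Fk) (Q : Place (ResidueField A) Fk) (P : Place QBar F) where
  center : redPlace h P = Q
  t : discRing h Q
  ord_self : P.ord (t : F) = 1
  ord_other : ∀ P', redPlace h P' = Q → P' ≠ P → P'.ord (t : F) = 0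
  red_ne : redR h Q t ≠ 0
  ord_red : Q.ord (redR h Q t) = 1

namespace DiscCoord

variable (C : DiscCoord h Q P)

theorem t_ne_zero : (C.t : F) ≠ 0 := fun e =>
  C.red_ne (by rw [show C.t = 0 from Subtype.ext e, map_zero])

theorem inv_mem : ((C.t : F))⁻¹ ∈ h.S :=
  inv_mem_of_redF_ne_zero h.toRedLattice ⟨_, ((mem_discRing h).mp C.t.2).1⟩ C.red_ne

/-- Division of a function vanishing at the centre by the coordinate. -/
def divT (φ : discRing h Q) : discRing h Q :=
  ⟨((φ : F) - algebraMap QBar F (valR C.center φ)) * ((C.t : F))⁻¹, by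
    refine (mem_discRing h).mpr ⟨mul_mem (sub_mem ((mem_discRing h).mp φ.2).1
      (h.const_mem _)) C.inv_mem, fun P' hP' => (mem_ordGe_zero P').mp ?_⟩
    rcases eq_or_ne P' P with rfl | hne
    · refine ordGe_anti P' (show (0 : ℤ) ≤ 1 + -1 by norm_num)
        (mul_mem_ordGe P' (sub_valR_mem C.center φ) (mem_ordGe_of_le P' ?_))
      rw [Place.ord_inv, C.ord_self]
    · refine ordGe_anti P' (show (0 : ℤ) ≤ 0 + 0 by norm_num)
        (mul_mem_ordGe P' ((mem_ordGe_zero P').mpr (sub_mem (((mem_discRing h).mp φ.2).2 P' hP')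
          (P'.algebraMap_mem' _))) (mem_ordGe_of_le P' ?_))
      rw [Place.ord_inv, C.ord_other P' hP' hne, neg_zero]⟩

theorem divT_add (φ ψ : discRing h Q) : C.divT (φ + ψ) = C.divT φ + C.divT ψ := by
  refine Subtype.ext ?_
  simp only [divT, valR_add, Subring.coe_add, AddMemClass.coe_add, map_add]
  ring

theorem divT_cst_mul (a : A) (φ : discRing h Q) :
    C.divT (cstR h Q a * φ) = cstR h Q a * C.divT φ := by
  refine Subtype.ext ?_
  simp only [divT, valR_cst_mul, Subring.coe_mul, MulMemClass.coe_mul, map_mul, coe_cstR]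
  ring

theorem valR_t_mul (φ : discRing h Q) : valR C.center (C.t * φ) = 0 := by
  refine valR_eq_zero C.center (ordGe_anti P (show (1 : ℤ) ≤ 1 + 0 by norm_num) ?_)
  exact mul_mem_ordGe P (mem_ordGe_of_le P C.ord_self.ge)
    ((mem_ordGe_zero P).mpr (((mem_discRing h).mp φ.2).2 P C.center))

theorem divT_t_mul (φ : discRing h Q) : C.divT (C.t * φ) = φ := by
  refine Subtype.ext ?_
  simp only [divT, valR_t_mul, Subring.coe_mul, ZeroMemClass.coe_zero, map_zero, sub_zero]
  rw [mul_comm (C.t : F), mul_assoc, mul_inv_cancel₀ C.t_ne_zero, mul_one]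

theorem redR_divT (φ : discRing h Q) : redR h Q (C.divT φ) * redR h Q C.t =
    redR h Q φ - algebraMap (ResidueField A) Fk (residue A (valR C.center φ)) := by
  rw [← map_mul, ← redR_cstR (h := h) (Q := Q), ← map_sub]
  refine congrArg _ (Subtype.ext ?_)
  simp only [divT, Subring.coe_mul, AddSubgroupClass.coe_sub, coe_cstR]
  rw [mul_assoc, inv_mul_cancel₀ C.t_ne_zero, mul_one]

/-- The coefficient of `t ^ n` at the centre. -/
def coef : ℕ → discRing h Q →+ A
  | 0 => AddMonoidHom.mk' (valR C.center) (valR_add C.center)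
  | n + 1 => (coef n).comp (AddMonoidHom.mk' C.divT C.divT_add)

theorem coef_zero (φ : discRing h Q) : C.coef 0 φ = valR C.center φ := rfl

theorem coef_succ (n : ℕ) (φ : discRing h Q) : C.coef (n + 1) φ = C.coef n (C.divT φ) := rfl

theorem coef_cst_mul (n : ℕ) (a : A) (φ : discRing h Q) :
    C.coef n (cstR h Q a * φ) = a * C.coef n φ := by
  induction n generalizing φ with
  | zero => exact valR_cst_mul C.center a φ
  | succ n ih => rw [coef_succ, coef_succ, divT_cst_mul, ih]

theorem coef_pow_mul_of_lt {n l : ℕ} (hl : n < l) (φ : discRing h Q) :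
    C.coef n (C.t ^ l * φ) = 0 := by
  induction n generalizing l φ with
  | zero =>
    obtain ⟨l, rfl⟩ := Nat.exists_eq_succ_of_ne_zero hl.ne'
    rw [coef_zero, pow_succ', mul_assoc, valR_t_mul]
  | succ n ih =>
    obtain ⟨l, rfl⟩ := Nat.exists_eq_succ_of_ne_zero (by omega : l ≠ 0)
    rw [coef_succ, pow_succ', mul_assoc, divT_t_mul, ih (by omega)]

theorem coef_pow_mul (l i : ℕ) (φ : discRing h Q) :
    C.coef (l + i) (C.t ^ l * φ) = C.coef i φ := by
  induction l with
  | zero => rw [zero_add, pow_zero, one_mul]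
  | succ l ih => rw [Nat.add_right_comm, coef_succ, pow_succ', mul_assoc, divT_t_mul, ih]

theorem residue_coef_ne_zero {j : ℕ} {φ : discRing h Q} (hne : redR h Q φ ≠ 0)
    (ho : Q.ord (redR h Q φ) = j) : residue A (C.coef j φ) ≠ 0 := by
  induction j generalizing φ with
  | zero => exact residue_valR_ne_zero C.center hne (by simpa using ho)
  | succ j ih =>
    have h1 := redR_sub_mem C.center φ
    have h2 : redR h Q φ ∈ ordGe Q 1 := mem_ordGe_of_le Q (by rw [ho]; push_cast; omega)
    have h3 := sub_mem h2 h1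
    rw [sub_sub_cancel] at h3
    have h4 := C.redR_divT φ
    rw [eq_zero_of_algebraMap_mem Q h3, map_zero, sub_zero] at h4
    have hne' : redR h Q (C.divT φ) ≠ 0 := left_ne_zero_of_mul (h4.trans_ne hne)
    have h5 := congrArg Q.ord h4
    rw [Q.ord_mul hne' C.red_ne, C.ord_red, ho] at h5
    rw [coef_succ]
    exact ih hne' (by push_cast at h5; omega)

end DiscCoord

end Fermat.Agent.RedTorsion

end
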