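import Fermat.Agent.RedTorsion.DiscValue

/-!
# No torsion prime to the residue characteristic in the kernel of reduction

If `m • D` is principal, `m` is a unit of `A`, and the reduction of `D` is principal, then so is `D`:
write `D` as `X - X₀` with `X₀` a non-special sum of points of distinct discs and compare the
coefficients of the function with divisor `m • (X - X₀)` at the centres to first order.
-/

set_option autoImplicit false
set_option maxHeartbeats 1000000
set_option synthInstance.maxHeartbeats 400000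
set_option linter.unusedSectionVars false

noncomputable section

open IsLocalRing AlgebraicCurve
open Fermat.Agent.Arith Fermat.Agent.FF Fermat.Agent.FiniteFlat
open scoped Classical

namespace Fermat.Agent.RedTorsion

section Curve

variable {K E : Type*} [Field K] [IsAlgClosed K] [Field E] [Algebra K E] [IsFunctionField K E]

theorem sum_single_apply (T : Finset (Place K E)) (v : Place K E) :
    (∑ w ∈ T, Finsupp.single w (1 : ℤ)) v = if v ∈ T then 1 else 0 := by
  simp [Finsupp.finsetSum_apply, Finsupp.single_apply]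

theorem degree_sum_single_one (T : Finset (Place K E)) :
    Divisor.degree (∑ w ∈ T, Finsupp.single w (1 : ℤ)) = T.card := by
  simp [map_sum, deg_eq_one]

/-- A non-special sum of distinct points. -/
theorem exists_distinct_generic :
    ∃ T : Finset (Place K E), T.card = genusFF K E ∧
      ell K (∑ w ∈ T, Finsupp.single w (1 : ℤ)) = 1 := by
  suffices ∀ n : ℕ, n ≤ genusFF K E → ∃ T : Finset (Place K E), T.card = n ∧
      h1 K (∑ w ∈ T, Finsupp.single w (1 : ℤ)) ≤ (genusFF K E : ℤ) - n by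
    obtain ⟨T, hT, hh⟩ := this _ le_rfl
    refine ⟨T, hT, ?_⟩
    have h0 : 0 ≤ h1 K (∑ w ∈ T, Finsupp.single w (1 : ℤ)) := by
      unfold h1; exact Int.natCast_nonneg _
    have := riemann_roch_isAlgClosed (∑ w ∈ T, Finsupp.single w (1 : ℤ))
    rw [degree_sum_single_one, hT] at this
    omega
  intro n
  induction n with
  | zero =>
    refine fun _ => ⟨∅, rfl, ?_⟩
    rw [Finset.sum_empty, ← genusFF_eq]
    simp
  | succ n ih =>
    intro hn
    obtain ⟨T, hT, hh⟩ := ih (by omega)
    set D := ∑ w ∈ T, Finsupp.single w (1 : ℤ) with hD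
    let bad : Set (Place K E) :=
      ↑T ∪ {v | 0 < h1 K D ∧ ell K D < ell K (D + Finsupp.single v 1)}
    have hbad : bad.Finite := by
      refine T.finite_toSet.union ?_
      by_cases h0 : 0 < h1 K D
      · exact (finite_jump h0).subset fun v hv => hv.2
      · exact Set.finite_empty.subset fun v hv => h0 hv.1
    haveI := infinite_place (K := K) (F := E)
    obtain ⟨v, hv⟩ := hbad.exists_notMem
    have hvT : v ∉ T := fun h => hv (Or.inl h)
    refine ⟨insert v T, by rw [Finset.card_insert_of_notMem hvT, hT], ?_⟩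
    rw [Finset.sum_insert hvT, add_comm, ← hD]
    have h5 := riemann_roch_isAlgClosed D
    have h6 := riemann_roch_isAlgClosed (D + Finsupp.single v 1)
    have h7 := ell_le_of_le (le_add_single D v)
    rw [map_add, degree_single_one] at h6 h7
    push_cast
    rcases le_or_gt (h1 K D) 0 with h0 | h0
    · omega
    · have : ell K (D + Finsupp.single v 1) ≤ ell K D := not_lt.mp fun h => hv (Or.inr ⟨h0, h⟩)
      omega

theorem div_pow {f : E} (hf : f ≠ 0) (k : ℕ) : div K (f ^ k) = k • div K f := by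
  ext v
  simp [ord_pow]

theorem exists_div_eq_of_principal {D : Divisor K E} (hD : D ∈ Divisor.principal (K := K) (F := E)) :
    ∃ f : E, f ≠ 0 ∧ D = div K f := by
  obtain ⟨f, hf, h⟩ := hD
  exact ⟨f, hf, Finsupp.ext h⟩

theorem div_mem_principal {f : E} (hf : f ≠ 0) :
    div K f ∈ Divisor.principal (K := K) (F := E) := ⟨f, hf, fun _ => rfl⟩

end Curve

variable {A : ValuationSubring QBar} {F : Type*} [Field F] [Algebra QBar F]
  {Fk : Type*} [Field Fk] [Algebra (ResidueField A) Fk]
  [IsFunctionField QBar F] [IsFunctionField (ResidueField A) Fk]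
  {h : GoodRed A F Fk}

theorem exists_redPlace_ne (Q : Place (ResidueField A) Fk) : ∃ P, redPlace h P ≠ Q := by
  by_contra! hall
  obtain ⟨x, hx, -⟩ := ‹IsFunctionField (ResidueField A) Fk›.exists_finite
  obtain ⟨f, hf⟩ := h.surj x
  have hdiv := redDiv_div h f (by rw [redF, hf]; exact fun e => hx (e ▸ isAlgebraic_zero))
  obtain ⟨w, hw⟩ := exists_ord_neg_of_transcendental hx
  have hzero : ∀ D : Divisor QBar F, redDiv h D = Finsupp.single Q (Divisor.degree D) := fun D => by
    induction D using Finsupp.induction with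
    | zero => simp
    | single_add v n D _ _ ih =>
      rw [map_add, map_add, ih, redDiv_single, hall, degree_single_one, ← Finsupp.single_add]
  rw [hzero, degree_div, Finsupp.single_zero, redF, hf] at hdiv
  have := congrArg (fun D => D w) hdiv
  simp only [Finsupp.coe_zero, Pi.zero_apply, div_apply] at this
  omega

theorem exists_uniformizer_lift (Q : Place (ResidueField A) Fk) :
    ∃ f : discRing h Q, redR h Q f ≠ 0 ∧ Q.ord (redR h Q f) = 1 := by
  obtain ⟨P₀, hP₀⟩ := exists_redPlace_ne (h := h) Q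
  have hb := rrBound_lt_bigDeg h
  have hb' := three_le_bigDeg h
  have hr := one_le_rrBound h
  set D : Divisor QBar F := Finsupp.single P₀ (bigDeg h + 2) with hD
  have hDQ : redDiv h D Q = 0 := by
    rw [hD, redDiv_single, Finsupp.single_eq_of_ne hP₀.symm]
  obtain ⟨x, hx, hxn⟩ := exists_notMem_ordGe (K := ResidueField A) (F := Fk)
    (fun _ => ell_eq_of_rrBound_le' h)
    (D := redDiv h D - Finsupp.single Q 1) (by
      rw [map_sub, degree_redDiv, hD, degree_single_one, degree_single_one]; omega) Q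
  rw [Finsupp.sub_apply, hDQ, Finsupp.single_eq_same] at hxn
  norm_num at hxn
  have hx1 : x ∈ ordGe Q 1 := by
    have := mem_riemannRochSpace'.mp hx Q
    rwa [Finsupp.sub_apply, hDQ, Finsupp.single_eq_same, zero_sub, neg_neg] at this
  have hxD : x ∈ redW h.toRedLattice (riemannRochSpace D) := by
    rw [redW_riemannRochSpace h (by rw [hD, degree_single_one]; omega)]
    exact riemannRochSpace_mono (sub_le_self _ (Finsupp.le_def.mpr fun w => by
      rcases eq_or_ne w Q with rfl | hw <;> simp [*])) hx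
  obtain ⟨f, hf, rfl⟩ := hxD
  have hfR : (f : F) ∈ discRing h Q := (mem_discRing h).mpr ⟨f.2, fun P hP => by
    have := mem_riemannRochSpace'.mp hf P
    rwa [hD, Finsupp.single_eq_of_ne (fun e : P = P₀ => hP₀ (e ▸ hP)), neg_zero,
      mem_ordGe_zero] at this⟩
  have hne : redR h Q ⟨_, hfR⟩ ≠ 0 := fun e => hxn (by
    rw [show redF h.toRedLattice f = 0 from e]; exact zero_mem _)
  refine ⟨⟨_, hfR⟩, hne, le_antisymm ?_ (le_ord_of_mem_ordGe Q hne hx1)⟩
  by_contra! hlt
  exact hxn (mem_ordGe_of_le Q (show (2 : ℤ) ≤ Q.ord (redF h.toRedLattice f) from hlt))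

theorem exists_lift_place (Q : Place (ResidueField A) Fk) : ∃ P, redPlace h P = Q := by
  obtain ⟨f, hne, ho⟩ := exists_uniformizer_lift (h := h) Q
  have hdiv := redDiv_div h ⟨(f : F), ((mem_discRing h).mp f.2).1⟩ hne
  obtain ⟨P, hP, -⟩ := exists_pos_of_redDiv_apply_pos h (D := FF.div QBar (f : F)) (Q := Q) (by
    rw [show FF.div QBar (f : F) = FF.div QBar ((⟨(f : F), ((mem_discRing h).mp f.2).1⟩ : h.S) : F)
      from rfl, hdiv, div_apply]
    exact lt_of_lt_of_eq zero_lt_one ho.symm)
  exact ⟨P, hP⟩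

theorem exists_discCoord {Q : Place (ResidueField A) Fk} {P : Place QBar F}
    (hP : redPlace h P = Q) : Nonempty (DiscCoord h Q P) := by
  obtain ⟨f, hne, ho⟩ := exists_uniformizer_lift (h := h) Q
  have h1 := redR_sub_mem hP f
  have h2 : algebraMap (ResidueField A) Fk (residue A (valR hP f)) ∈ ordGe Q 1 := by
    have := sub_mem (mem_ordGe_of_le Q ho.ge) h1
    rwa [sub_sub_cancel] at this
  set t : discRing h Q := f - cstR h Q (valR hP f) with ht
  have htr : redR h Q t = redR h Q f := by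
    rw [ht, map_sub, redR_cstR, eq_zero_of_algebraMap_mem Q h2, map_zero, sub_zero]
  have ht0 : (t : F) ≠ 0 := fun e => hne (by
    rw [← htr, show t = 0 from Subtype.ext e, map_zero])
  have hnn : ∀ P', redPlace h P' = Q → 0 ≤ P'.ord (t : F) := fun P' hP' =>
    ord_nonneg P' (((mem_discRing h).mp t.2).2 P' hP')
  have hself : 1 ≤ P.ord (t : F) := le_ord_of_mem_ordGe P ht0 (sub_valR_mem hP f)
  have hsum : redDiv h (FF.div QBar (t : F)) Q = 1 := by
    rw [show FF.div QBar (t : F) = FF.div QBar ((⟨(t : F), ((mem_discRing h).mp t.2).1⟩ : h.S) : F)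
      from rfl, redDiv_div h ⟨(t : F), ((mem_discRing h).mp t.2).1⟩ (htr.trans_ne hne), div_apply]
    exact (congrArg Q.ord htr).trans ho
  have hle := le_redDiv_apply h (D := FF.div QBar (t : F)) (fun P' hP' => hnn P' hP') hP
  rw [hsum, div_apply] at hle
  refine ⟨⟨hP, t, le_antisymm hle hself, fun P' hP' hne' => ?_, htr.trans_ne hne,
    htr ▸ ho⟩⟩
  rw [redDiv_apply_eq_sum] at hsum
  by_contra h0
  have := Finset.add_le_sum (s := (FF.div QBar (t : F)).support.filter fun R => redPlace h R = Q)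
    (f := fun R => FF.div QBar (t : F) R) (fun R hR => hnn R (Finset.mem_filter.mp hR).2)
    (Finset.mem_filter.mpr ⟨Finsupp.mem_support_iff.mpr h0, hP'⟩)
    (Finset.mem_filter.mpr ⟨Finsupp.mem_support_iff.mpr (by rw [div_apply]; omega), hP⟩) hne'
  rw [hsum, div_apply, div_apply] at this
  have := hnn P' hP'
  omega

namespace DiscCoord

variable {Q : Place (ResidueField A) Fk} {P : Place QBar F} (C : DiscCoord h Q P)

/-- A term of the binomial expansion of `(t - a) ^ m * u`. -/
theorem coef_binomial_term (m l j : ℕ) (a : A) (u : discRing h Q) :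
    C.coef j (C.t ^ l * cstR h Q (-a) ^ (m - l) * (m.choose l : discRing h Q) * u) =
      (-a) ^ (m - l) * (m.choose l : A) * if l ≤ j then C.coef (j - l) u else 0 := by
  have e : C.t ^ l * cstR h Q (-a) ^ (m - l) * (m.choose l : discRing h Q) * u =
      cstR h Q ((-a) ^ (m - l) * (m.choose l : A)) * (C.t ^ l * u) := by
    rw [map_mul, map_pow, map_natCast]; ring
  rw [e, coef_cst_mul]
  split_ifs with hl
  · obtain ⟨i, rfl⟩ := Nat.exists_eq_add_of_le hl
    rw [coef_pow_mul, Nat.add_sub_cancel_left]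
  · rw [coef_pow_mul_of_lt C (not_le.mp hl)]

theorem sq_dvd_coef {m j : ℕ} (hj : j + 2 ≤ m) (a : A) (u : discRing h Q) :
    a ^ 2 ∣ C.coef j ((C.t + cstR h Q (-a)) ^ m * u) := by
  rw [add_pow, Finset.sum_mul, map_sum]
  refine Finset.dvd_sum fun l _ => ?_
  rw [coef_binomial_term]
  split_ifs with hl
  · exact Dvd.dvd.mul_right (Dvd.dvd.mul_right ((pow_dvd_pow a (by omega : 2 ≤ m - l)).trans
      (pow_dvd_pow_of_dvd (dvd_neg.mpr dvd_rfl) _)) _) _
  · rw [mul_zero]; exact dvd_zero _

theorem sq_dvd_coef_sub (n : ℕ) (a : A) (u : discRing h Q) :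
    a ^ 2 ∣ C.coef n ((C.t + cstR h Q (-a)) ^ (n + 1) * u) - (-a) * (n + 1 : ℕ) * C.coef 0 u := by
  rw [add_pow, Finset.sum_mul, map_sum, ← Finset.add_sum_erase _ _
    (Finset.mem_range.mpr (show n < n + 1 + 1 by omega)), coef_binomial_term, if_pos le_rfl,
    Nat.add_sub_cancel_left, pow_one, Nat.choose_succ_self_right, Nat.sub_self, add_sub_cancel_left]
  refine Finset.dvd_sum fun l hl => ?_
  rw [coef_binomial_term]
  split_ifs with hl'
  · have : 2 ≤ n + 1 - l := by have := (Finset.mem_erase.mp hl).1; omega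
    exact Dvd.dvd.mul_right (Dvd.dvd.mul_right ((pow_dvd_pow a this).trans
      (pow_dvd_pow_of_dvd (dvd_neg.mpr dvd_rfl) _)) _) _
  · rw [mul_zero]; exact dvd_zero _

end DiscCoord

theorem exists_dvd_all (s : Finset A) (hs : s.Nonempty) : ∃ a ∈ s, ∀ b ∈ s, a ∣ b := by
  induction hs using Finset.Nonempty.cons_induction with
  | singleton a => exact ⟨a, by simp, by simp⟩
  | cons a s ha hs ih =>
    obtain ⟨b, hb, hall⟩ := ih
    rcases ValuationRing.dvd_total a b with h' | h'
    · exact ⟨a, by simp, fun c hc => (Finset.mem_cons.mp hc).elim (fun e => e ▸ dvd_rfl)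
        fun hc => h'.trans (hall c hc)⟩
    · exact ⟨b, by simp [hb], fun c hc => (Finset.mem_cons.mp hc).elim (fun e => e ▸ h') (hall c)⟩

theorem mem_of_smul_eq {s : QBar} {w x : h.S} (hw : redF h.toRedLattice w ≠ 0)
    (e : (x : F) = s • (w : F)) : s ∈ A := by
  by_contra hs
  have hi : s⁻¹ ∈ A := (A.mem_or_inv_mem s).resolve_left hs
  have hs0 : s ≠ 0 := fun e => hs (e ▸ A.zero_mem)
  have hres : residue A ⟨s⁻¹, hi⟩ = 0 := by
    refine (IsLocalRing.residue_eq_zero_iff _).mpr fun hu => hs ?_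
    obtain ⟨v, hv⟩ := hu.exists_right_inv
    have h3 := congrArg Subtype.val hv
    simp only [MulMemClass.coe_mul, OneMemClass.coe_one] at h3
    rw [← inv_inv s, ← eq_inv_of_mul_eq_one_right h3]
    exact v.2
  have hwx : w = ⟨_, smul_mem_lattice h.toRedLattice ⟨s⁻¹, hi⟩ x.2⟩ := Subtype.ext (by
    show (w : F) = s⁻¹ • (x : F)
    rw [e, inv_smul_smul₀ hs0])
  exact hw (by rw [hwx, redF_smul, hres, zero_smul])

/-- Effective divisors of the same reduction as a sum of points of distinct discs are such sums. -/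
theorem eq_sum_of_redDiv_eq {T : Finset (Place (ResidueField A) Fk)} {X : Divisor QBar F}
    (hX : 0 ≤ X) (hred : redDiv h X = ∑ Q ∈ T, Finsupp.single Q (1 : ℤ)) :
    ∃ p : T → Place QBar F, (∀ Q, redPlace h (p Q) = Q) ∧
      X = ∑ Q, Finsupp.single (p Q) (1 : ℤ) := by
  have hex : ∀ Q : T, ∃ P, redPlace h P = Q ∧ 0 < X P := fun Q => by
    refine exists_pos_of_redDiv_apply_pos h ?_
    rw [hred, sum_single_apply, if_pos Q.2]
    exact one_pos
  choose p hp hpX using hex
  refine ⟨p, hp, (eq_of_le_of_degree_le (Finsupp.le_def.mpr fun P => ?_) ?_).symm⟩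
  · simp only [Finsupp.finsetSum_apply, Finsupp.single_apply]
    by_cases hex' : ∃ Q, p Q = P
    · obtain ⟨Q, rfl⟩ := hex'
      rw [Finset.sum_eq_single Q (fun Q' _ hne => if_neg fun e => hne (Subtype.ext (by
        rw [← hp Q', ← hp Q, e]))) (fun hn => absurd (Finset.mem_univ Q) hn), if_pos rfl]
      exact hpX Q
    · rw [Finset.sum_eq_zero fun Q _ => if_neg fun e => hex' ⟨Q, e⟩]
      exact Finsupp.le_def.mp hX P
  · rw [← degree_redDiv h X, hred, degree_sum_single_one, map_sum]
    simp [deg_eq_one]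

theorem sum_apply_disc {T : Finset (Place (ResidueField A) Fk)} {p : T → Place QBar F}
    (hp : ∀ Q, redPlace h (p Q) = Q) {Q : T} {R : Place QBar F} (hR : redPlace h R = Q) :
    (∑ Q', Finsupp.single (p Q') (1 : ℤ)) R = if R = p Q then 1 else 0 := by
  simp only [Finsupp.finsetSum_apply, Finsupp.single_apply]
  rw [Finset.sum_eq_single Q (fun Q' _ hne => if_neg fun e => hne (Subtype.ext (by
    rw [← hp Q', e, hR]))) (fun hn => absurd (Finset.mem_univ Q) hn)]
  exact if_congr eq_comm rfl rfl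

/-- The kernel of reduction contains no torsion of order a unit of `A`. -/
theorem mem_principal_of_redDiv_mem_principal (h : GoodRed A F Fk) {m : ℕ} (hm : IsUnit (m : A))
    {D : Divisor QBar F} (hdeg : Divisor.degree D = 0)
    (hmD : (m : ℤ) • D ∈ Divisor.principal (K := QBar) (F := F))
    (hred : redDiv h D ∈ Divisor.principal (K := ResidueField A) (F := Fk)) :
    D ∈ Divisor.principal (K := QBar) (F := F) := by
  haveI : IsAlgClosed (ResidueField A) := residueField_isAlgClosed A
  obtain ⟨f₁, hf₁, hmD'⟩ := exists_div_eq_of_principal hmD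
  obtain ⟨g₁, hg₁, hred'⟩ := exists_div_eq_of_principal hred
  have hm0 : m ≠ 0 := by rintro rfl; simp at hm
  obtain ⟨n, rfl⟩ := Nat.exists_eq_succ_of_ne_zero hm0
  obtain ⟨T, hTc, hTl⟩ := exists_distinct_generic (K := ResidueField A) (E := Fk)
  choose P0 hP0 using fun Q : T => exists_lift_place (h := h) (Q : Place (ResidueField A) Fk)
  have hC : ∀ Q : T, Nonempty (DiscCoord h (Q : Place (ResidueField A) Fk) (P0 Q)) :=
    fun Q => exists_discCoord (hP0 Q)
  let C := fun Q : T => (hC Q).some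
  set Xb : Divisor (ResidueField A) Fk := ∑ Q ∈ T, Finsupp.single Q (1 : ℤ) with hXb
  set X0 : Divisor QBar F := ∑ Q, Finsupp.single (P0 Q) (1 : ℤ) with hX0
  have hX0r : redDiv h X0 = Xb := by
    rw [hX0, map_sum, hXb, ← Finset.sum_coe_sort T]
    simp only [redDiv_single, hP0]
  have hX0n : 0 ≤ X0 := Finset.sum_nonneg fun Q _ => Finsupp.le_def.mpr fun R => by
    rcases eq_or_ne R (P0 Q) with rfl | hR <;> simp [*]
  -- the effective divisor in the class of `D + X₀`
  obtain ⟨f₂, hf₂, hX⟩ := exists_effective_of_ell_pos (D := D + X0) (by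
    refine lt_of_lt_of_le one_pos (one_le_ell_of_degree_eq_genus ?_)
    rw [map_add, hdeg, zero_add, ← degree_redDiv h X0, hX0r, hXb, degree_sum_single_one, hTc,
      genusFF_eq_of_goodRed h])
  set X := D + X0 + div QBar f₂ with hXdef
  have hXr : redDiv h X = Xb := by
    obtain ⟨c, z, hc, hz, hfz⟩ := exists_primitive h.toRedLattice hf₂
    have hz0 : (z : F) ≠ 0 := fun e => hf₂ (by simp [hfz, e])
    refine eq_of_ell_eq_one (f := g₁ * redF h.toRedLattice z)
      (hX0r ▸ redDiv_nonneg h hX0n) (redDiv_nonneg h hX) hTl ?_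
    rw [hXdef, map_add, map_add, hred', hX0r, hfz, div_smul hc hz0, redDiv_div h z hz,
      FF.div_mul hg₁ hz]
    abel
  obtain ⟨p, hp, hXp⟩ := eq_sum_of_redDiv_eq hX hXr
  suffices hfin : ∀ Q, p Q = P0 Q by
    have e : X = X0 := by rw [hXp, hX0]; simp only [hfin]
    have e2 : D = -div QBar f₂ := by
      rw [hXdef, add_right_comm, add_eq_right] at e
      exact eq_neg_of_add_eq_zero_left e
    rw [e2]
    exact neg_mem (div_mem_principal hf₂)
  -- the function with divisor `m • (X - X₀)`
  obtain ⟨c₀, f, hc₀, hfr, hf₃⟩ := exists_primitive h.toRedLattice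
    (mul_ne_zero hf₁ (pow_ne_zero (n + 1) hf₂))
  have hf0 : (f : F) ≠ 0 := fun e => hfr (by rw [show f = 0 from Subtype.ext e, map_zero])
  have hfdiv : div QBar (f : F) = ((n + 1 : ℕ) : ℤ) • (X - X0) := by
    rw [← div_smul hc₀ hf0, ← hf₃, FF.div_mul hf₁ (pow_ne_zero _ hf₂), ← hmD', div_pow hf₂,
      hXdef, natCast_zsmul, natCast_zsmul, ← smul_add]
    congr 1
    abel
  obtain ⟨b, hb⟩ : ∃ b, redF h.toRedLattice f = algebraMap _ Fk b := by
    refine eq_algebraMap_of_ord_nonneg (K := ResidueField A) (fun v => ?_)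
    have := congrArg (fun D => D v) (redDiv_div h f hfr)
    simp only [hfdiv, map_zsmul, map_sub, hXr, hX0r, sub_self, smul_zero, Finsupp.coe_zero,
      Pi.zero_apply, div_apply] at this
    omega
  -- normalisation at an auxiliary point
  haveI := infinite_place (K := ResidueField A) (F := Fk)
  obtain ⟨Q₁, hQ₁⟩ := T.finite_toSet.exists_notMem
  obtain ⟨P₁, hP₁⟩ := exists_lift_place (h := h) Q₁
  have hout : ∀ R, redPlace h R = Q₁ → X R = 0 ∧ X0 R = 0 := fun R hR => by
    simp only [hXp, hX0, Finsupp.finsetSum_apply, Finsupp.single_apply]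
    constructor <;> refine Finset.sum_eq_zero fun Q _ => if_neg fun e => hQ₁ ?_
    · rw [← hR, ← e, hp]; exact Q.2
    · rw [← hR, ← e, hP0]; exact Q.2
  have hford : ∀ R, R.ord (f : F) = ((n + 1 : ℕ) : ℤ) * (X R - X0 R) := fun R => by
    rw [← div_apply (K := QBar), hfdiv, Finsupp.smul_apply, Finsupp.sub_apply, smul_eq_mul]
  let φ₁ : discRing h Q₁ := ⟨f, mem_discRing_of_ord h f.2 fun R hR => by
    rw [hford, (hout R hR).1, (hout R hR).2, sub_zero, mul_zero]⟩
  set c := valR hP₁ φ₁ with hc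
  by_cases hfc : (f : F) = algebraMap QBar F c
  · intro Q
    have h1 := hford (p Q)
    rw [hfc, ord_algebraMap, hXp, hX0, sum_apply_disc hp (hp Q), sum_apply_disc hP0 (hp Q),
      if_pos rfl] at h1
    by_contra hne
    rw [if_neg hne, sub_zero, mul_one] at h1
    omega
  obtain ⟨s, w, hs, hwr, hfw⟩ := exists_primitive h.toRedLattice (sub_ne_zero.mpr hfc)
  have hsA : s ∈ A := mem_of_smul_eq hwr
    (x := ⟨_, sub_mem f.2 (h.const_mem c)⟩) hfw
  have hw0 : (w : F) ≠ 0 := fun e => hwr (by rw [show w = 0 from Subtype.ext e, map_zero])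
  have hweq : (w : F) = s⁻¹ • ((f : F) - algebraMap QBar F c) := by
    rw [hfw, inv_smul_smul₀ hs]
  have hwpol : ∀ R, (w : F) ∈ ordGe R (-((n + 1 : ℕ) : ℤ) * X0 R) := fun R => by
    rw [hweq]
    refine Submodule.smul_mem _ _ (sub_mem (mem_ordGe_of_le R ?_) (mem_ordGe_of_le R ?_))
    · rw [hford]
      have := mul_nonneg (Int.natCast_nonneg (n + 1)) (Finsupp.le_def.mp hX R)
      linarith
    · rw [ord_algebraMap]
      have := mul_nonneg (Int.natCast_nonneg (n + 1)) (Finsupp.le_def.mp hX0n R)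
      linarith
  -- a pole of order at least two
  set wb := redF h.toRedLattice w with hwb
  have hwbpol : ∀ Q, -((n + 1 : ℕ) : ℤ) * Xb Q ≤ Q.ord wb := fun Q => by
    have h1 : (-((n + 1 : ℕ) : ℤ)) • X0 ≤ FF.div QBar (w : F) :=
      Finsupp.le_def.mpr fun R => le_ord_of_mem_ordGe R hw0 (hwpol R)
    have h2 := Finsupp.le_def.mp (redDiv_mono (h := h) h1) Q
    rwa [map_zsmul, hX0r, redDiv_div h w hwr, Finsupp.smul_apply, smul_eq_mul, div_apply] at h2
  obtain ⟨Q₀, hQ₀⟩ : ∃ Q : T, Place.ord (Q : Place (ResidueField A) Fk) wb ≤ -2 := by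
    by_contra! hall
    have hmem : wb ∈ riemannRochSpace Xb := mem_riemannRochSpace'.mpr fun Q =>
      mem_ordGe_of_le Q (by
        have := hwbpol Q
        rw [hXb, sum_single_apply] at this ⊢
        split_ifs with hQT
        · have h2 : -2 < Q.ord wb := hall ⟨Q, hQT⟩; omega
        · rw [if_neg hQT, mul_zero] at this; omega)
    have hXbn : (0 : Divisor (ResidueField A) Fk) ≤ Xb := hX0r ▸ redDiv_nonneg h hX0n
    have h1' : Module.finrank (ResidueField A) (riemannRochSpace Xb) = 1 := by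
      unfold ell at hTl; exact_mod_cast hTl
    obtain ⟨d, hd⟩ := (finrank_eq_one_iff_of_nonzero'
      (⟨algebraMap _ Fk 1, algebraMap_mem_riemannRochSpace hXbn 1⟩ : riemannRochSpace Xb)
      fun e => by simpa using congrArg Subtype.val e).mp h1' ⟨wb, hmem⟩
    have hd' : wb = algebraMap _ Fk d := by
      have := congrArg Subtype.val hd
      simpa [Algebra.smul_def] using this.symm
    let ψ : discRing h Q₁ := ⟨w, mem_discRing_of_ord h w.2 fun R hR => by
      have := le_ord_of_mem_ordGe R hw0 (hwpol R)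
      rwa [(hout R hR).2, mul_zero] at this⟩
    have hψ : (ψ : F) ∈ ordGe P₁ 1 := by
      show (w : F) ∈ _
      rw [hweq]
      exact Submodule.smul_mem _ _ (sub_valR_mem hP₁ φ₁)
    have h2 := redR_mem_ordGe ψ hP₁ hψ
    have h3 : redR h Q₁ ψ = wb := rfl
    rw [h3, hd'] at h2
    exact hwr (show wb = 0 by rw [hd', eq_zero_of_algebraMap_mem Q₁ h2, map_zero])
  -- the data in each disc
  have hsame : ∀ Q : T, ∀ R, redPlace h R = Q →
      X R = (if R = p Q then 1 else 0) ∧ X0 R = (if R = P0 Q then 1 else 0) := fun Q R hR => by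
    rw [hXp, hX0]
    exact ⟨sum_apply_disc hp hR, sum_apply_disc hP0 hR⟩
  have hpmem : ∀ Q : T, redPlace h (p Q) = (Q : Place (ResidueField A) Fk) := hp
  let a : T → A := fun Q => valR (hpmem Q) (C Q).t
  have hares : ∀ Q, residue A (a Q) = 0 := fun Q => by
    have h1 := redR_sub_mem (hpmem Q) (C Q).t
    have h2 := sub_mem (mem_ordGe_of_le _ (C Q).ord_red.ge) h1
    rw [sub_sub_cancel] at h2
    exact eq_zero_of_algebraMap_mem _ h2
  have ha0 : ∀ Q, a Q = 0 → p Q = P0 Q := fun Q hQ => by
    by_contra hne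
    have h1 := sub_valR_mem (hpmem Q) (C Q).t
    rw [show valR (hpmem Q) (C Q).t = 0 from hQ, ZeroMemClass.coe_zero, map_zero, sub_zero] at h1
    have := le_ord_of_mem_ordGe _ (C Q).t_ne_zero h1
    rw [(C Q).ord_other (p Q) (hpmem Q) hne] at this
    omega
  have key : ∀ Q : T, ∃ u g : discRing h (Q : Place (ResidueField A) Fk),
      residue A ((C Q).coef 0 u) ≠ 0 ∧
      ((C Q).t + cstR h _ (-a Q)) ^ (n + 1) * u =
        cstR h _ c * ((C Q).t ^ (n + 1) * 1) + cstR h _ ⟨s, hsA⟩ * g ∧
      redR h _ g = wb * redR h _ (C Q).t ^ (n + 1) := by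
    intro Q
    set t := (C Q).t with htdef
    set t' : discRing h (Q : Place (ResidueField A) Fk) := t + cstR h _ (-a Q) with ht'
    have ht'r : redR h _ t' = redR h _ t := by
      rw [ht', map_add, redR_cstR, map_neg, hares, neg_zero, map_zero, add_zero]
    have ht'0 : (t' : F) ≠ 0 := fun e => (C Q).red_ne (by
      rw [← ht'r, show t' = 0 from Subtype.ext e, map_zero])
    have ht'eq : (t' : F) = (t : F) - algebraMap QBar F (a Q) := by
      rw [ht', Subring.coe_add, coe_cstR, NegMemClass.coe_neg, map_neg, sub_eq_add_neg]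
    have hnn : ∀ R, redPlace h R = Q → 0 ≤ R.ord (t' : F) := fun R hR =>
      ord_nonneg R (((mem_discRing h).mp t'.2).2 R hR)
    have hself : 1 ≤ (p Q).ord (t' : F) := le_ord_of_mem_ordGe _ ht'0 (by
      rw [ht'eq]; exact sub_valR_mem (hpmem Q) (C Q).t)
    have hsum : redDiv h (FF.div QBar (t' : F)) Q = 1 := by
      rw [show FF.div QBar (t' : F) =
          FF.div QBar ((⟨(t' : F), ((mem_discRing h).mp t'.2).1⟩ : h.S) : F) from rfl,
        redDiv_div h ⟨(t' : F), ((mem_discRing h).mp t'.2).1⟩ (ht'r.trans_ne (C Q).red_ne), div_apply]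
      exact (congrArg (Place.ord _) ht'r).trans (C Q).ord_red
    have hle := le_redDiv_apply h (D := FF.div QBar (t' : F)) (fun R hR => hnn R hR) (hpmem Q)
    rw [hsum, div_apply] at hle
    have hoth : ∀ R, redPlace h R = Q → R ≠ p Q → R.ord (t' : F) = 0 := by
      intro R hR hne
      rw [redDiv_apply_eq_sum] at hsum
      by_contra h0
      have := Finset.add_le_sum (s := (FF.div QBar (t' : F)).support.filter fun R => redPlace h R = Q)
        (f := fun R => FF.div QBar (t' : F) R) (fun R hR => hnn R (Finset.mem_filter.mp hR).2)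
        (Finset.mem_filter.mpr ⟨Finsupp.mem_support_iff.mpr h0, hR⟩)
        (Finset.mem_filter.mpr ⟨Finsupp.mem_support_iff.mpr (by rw [div_apply]; omega), hpmem Q⟩) hne
      rw [hsum, div_apply, div_apply] at this
      have := hnn R hR
      omega
    have hordt : ∀ R, redPlace h R = Q →
        R.ord (t : F) = X0 R ∧ R.ord (t' : F) = X R := by
      intro R hR
      constructor
      · rw [(hsame Q R hR).2]
        split_ifs with e
        · rw [e]; exact (C Q).ord_self
        · exact (C Q).ord_other R hR e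
      · rw [(hsame Q R hR).1]
        split_ifs with e
        · rw [e]; exact le_antisymm hle hself
        · exact hoth R hR e
    have hinv : ((t' : F))⁻¹ ∈ h.S := inv_mem_of_redF_ne_zero h.toRedLattice
      ⟨_, ((mem_discRing h).mp t'.2).1⟩ (ht'r.trans_ne (C Q).red_ne)
    have htS := ((mem_discRing h).mp t.2).1
    have hu : (f : F) * (t : F) ^ (n + 1) * ((t' : F)⁻¹) ^ (n + 1) ∈
        discRing h (Q : Place (ResidueField A) Fk) := by
      refine mem_discRing_of_ord h (mul_mem (mul_mem f.2 (pow_mem htS _)) (pow_mem hinv _))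
        fun R hR => ?_
      rw [R.ord_mul (mul_ne_zero hf0 (pow_ne_zero _ (C Q).t_ne_zero))
        (pow_ne_zero _ (inv_ne_zero ht'0)), R.ord_mul hf0 (pow_ne_zero _ (C Q).t_ne_zero),
        ord_pow, ord_pow, R.ord_inv, hford, (hordt R hR).1, (hordt R hR).2]
      linarith
    have hg : (w : F) * (t : F) ^ (n + 1) ∈ discRing h (Q : Place (ResidueField A) Fk) := by
      refine mem_discRing_of_ord h (mul_mem w.2 (pow_mem htS _)) fun R hR => ?_
      rw [R.ord_mul hw0 (pow_ne_zero _ (C Q).t_ne_zero), ord_pow, (hordt R hR).1]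
      have := le_ord_of_mem_ordGe R hw0 (hwpol R)
      linarith
    refine ⟨⟨_, hu⟩, ⟨_, hg⟩, ?_, Subtype.ext ?_, ?_⟩
    · have e : (⟨_, hu⟩ : discRing h (Q : Place (ResidueField A) Fk)) * t' ^ (n + 1) =
          ⟨(f : F) * (t : F) ^ (n + 1), by
            refine mem_discRing_of_ord h (mul_mem f.2 (pow_mem htS _)) fun R hR => ?_
            rw [R.ord_mul hf0 (pow_ne_zero _ (C Q).t_ne_zero), ord_pow, hford, (hordt R hR).1]
            have := mul_nonneg (Int.natCast_nonneg (n + 1)) (Finsupp.le_def.mp hX R)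
            linarith⟩ := Subtype.ext (by
          rw [Subring.coe_mul, SubmonoidClass.coe_pow]
          show _ * _ = (f : F) * _
          rw [mul_assoc, ← mul_pow, inv_mul_cancel₀ ht'0, one_pow, mul_one])
      have e2 := congrArg (redR h _) e
      rw [map_mul, map_pow, ht'r] at e2
      have e3 : redR h (Q : Place (ResidueField A) Fk) ⟨_, hu⟩ * redR h _ t ^ (n + 1) =
          algebraMap _ Fk b * redR h _ t ^ (n + 1) := by
        rw [e2, ← hb]
        exact (map_mul (redF h.toRedLattice) f (⟨(t : F), htS⟩ ^ (n + 1))).trans (by rw [map_pow (redF h.toRedLattice)])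
      have e4 := mul_right_cancel₀ (pow_ne_zero _ (C Q).red_ne) e3
      rw [(C Q).coef_zero]
      refine residue_valR_ne_zero (C Q).center (e4.trans_ne ?_) (by rw [e4, ord_algebraMap])
      rw [← hb]; exact hfr
    · rw [mul_one]
      show (t' : F) ^ (n + 1) * ((f : F) * (t : F) ^ (n + 1) * ((t' : F)⁻¹) ^ (n + 1)) = _
      have hc1 : (t' : F) ^ (n + 1) * ((f : F) * (t : F) ^ (n + 1) * ((t' : F)⁻¹) ^ (n + 1)) =
          (f : F) * (t : F) ^ (n + 1) := by
        rw [mul_comm _ (((t' : F)⁻¹) ^ (n + 1)), ← mul_assoc, ← mul_pow, mul_inv_cancel₀ ht'0,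
          one_pow, one_mul]
      refine hc1.trans ?_
      show _ = algebraMap QBar F c * (t : F) ^ (n + 1) + algebraMap QBar F s * ((w : F) * (t : F) ^ (n + 1))
      rw [← mul_assoc, ← add_mul, ← Algebra.smul_def, ← hfw, add_sub_cancel]
    · exact (map_mul (redF h.toRedLattice) w (⟨(t : F), htS⟩ ^ (n + 1))).trans
        (by rw [map_pow (redF h.toRedLattice)])
  -- the first order comparison
  intro Q
  obtain ⟨α, hα, hall⟩ := exists_dvd_all (Finset.univ.image a) ⟨a Q₀, by simp⟩
  obtain ⟨Qm, -, rfl⟩ := Finset.mem_image.mp hα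
  have hall' : ∀ R, a Qm ∣ a R := fun R => hall _ (Finset.mem_image_of_mem a (Finset.mem_univ R))
  suffices a Qm = 0 by
    refine ha0 Q ?_
    obtain ⟨r, hr⟩ := hall' Q
    rw [hr, this, zero_mul]
  obtain ⟨k, hk⟩ : ∃ k : ℕ, Place.ord (Q₀ : Place (ResidueField A) Fk) wb = -(k : ℤ) :=
    ⟨(-Place.ord (Q₀ : Place (ResidueField A) Fk) wb).toNat, by omega⟩
  have hkm : k ≤ n + 1 := by
    have := hwbpol Q₀
    rw [hXb, sum_single_apply, if_pos Q₀.2, hk] at this
    push_cast at this
    omega
  have hs2 : a Qm ^ 2 ∣ (⟨s, hsA⟩ : A) := by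
    obtain ⟨u, g, -, heq, hgr⟩ := key Q₀
    have hj : n + 1 - k + 2 ≤ n + 1 := by omega
    have h1 := congrArg ((C Q₀).coef (n + 1 - k)) heq
    rw [map_add, DiscCoord.coef_cst_mul, DiscCoord.coef_cst_mul,
      DiscCoord.coef_pow_mul_of_lt _ (by omega), mul_zero, zero_add] at h1
    have h2 := ((C Q₀).sq_dvd_coef hj (a Q₀) u)
    rw [h1] at h2
    have hu : IsUnit ((C Q₀).coef (n + 1 - k) g) := by
      by_contra hnu
      refine (C Q₀).residue_coef_ne_zero ?_ ?_ ((IsLocalRing.residue_eq_zero_iff _).mpr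
        (show _ ∈ maximalIdeal A from hnu))
      · rw [hgr]; exact mul_ne_zero hwr (pow_ne_zero _ (C Q₀).red_ne)
      · rw [hgr, Place.ord_mul _ hwr (pow_ne_zero _ (C Q₀).red_ne), ord_pow, (C Q₀).ord_red, hk,
          Nat.cast_sub hkm]
        ring
    exact (pow_dvd_pow_of_dvd (hall' Q₀) 2).trans (hu.dvd_mul_right.mp h2)
  obtain ⟨u, g, hu0, heq, -⟩ := key Qm
  have h1 := congrArg ((C Qm).coef n) heq
  rw [map_add, DiscCoord.coef_cst_mul, DiscCoord.coef_cst_mul,
    DiscCoord.coef_pow_mul_of_lt _ (by omega), mul_zero, zero_add] at h1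
  have h2 := (C Qm).sq_dvd_coef_sub n (a Qm) u
  rw [h1] at h2
  have h3 := dvd_sub (hs2.mul_right ((C Qm).coef n g)) h2
  rw [sub_sub_cancel, neg_mul, neg_mul, dvd_neg] at h3
  by_contra hne
  rw [sq, mul_assoc, mul_dvd_mul_iff_left hne] at h3
  have hu : IsUnit ((C Qm).coef 0 u) := by
    by_contra hnu
    exact hu0 ((IsLocalRing.residue_eq_zero_iff _).mpr (show _ ∈ maximalIdeal A from hnu))
  exact (IsLocalRing.residue_eq_zero_iff _).mp (hares Qm)
    (isUnit_of_dvd_unit h3 (hm.mul hu))

end Fermat.Agent.RedTorsion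

end
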